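import Fermat.Agent.LT.HeckeAlg.Algebra
import Fermat.Agent.LT.Places.HeckeSetup

/-!
# Double-coset functions, supports at sets of places and commutation

The operator of a double coset is the operator of its indicator. Hecke functions supported at
disjoint sets of places commute, in particular the operators `T_v` and `T_w` at distinct good
places.
-/

set_option autoImplicit false

noncomputable section

open scoped NumberField

namespace Fermat.Agent.LT.HeckeFn

variable {F : Type*} [Field F] [NumberField F] {U : Level F}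

open Classical in
/-- The indicator of `U x U`. -/
def double (U : Level F) (x : GLFin F) : HeckeFn U where
  toFun g := if g ∈ doubleSet U x then 1 else 0
  left_inv' u g hu := by
    refine if_congr ⟨fun h => ?_, fun h => ?_⟩ rfl rfl
    · obtain ⟨a, ha, b, hb, e⟩ := h
      exact ⟨u⁻¹ * a, mul_mem (inv_mem hu) ha, b, hb, by
        rw [← inv_mul_cancel_left u g, e]; group⟩
    · obtain ⟨a, ha, b, hb, e⟩ := h
      exact ⟨u * a, mul_mem hu ha, b, hb, by rw [e]; group⟩
  right_inv' g u hu := by
    refine if_congr ⟨fun h => ?_, fun h => ?_⟩ rfl rfl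
    · obtain ⟨a, ha, b, hb, e⟩ := h
      exact ⟨a, ha, b * u⁻¹, mul_mem hb (inv_mem hu), by
        rw [← mul_inv_cancel_right g u, e]; group⟩
    · obtain ⟨a, ha, b, hb, e⟩ := h
      exact ⟨a, ha, b * u, mul_mem hb hu, by rw [e]; group⟩
  finite_support := (HeckeAlg.finite_doubleCoset U x).subset
    (Set.image_mono fun g hg => by_contra fun h => hg (if_neg h))

/-- The double-coset operator is the operator of the indicator. -/
theorem doubleOp_eq_op (x : GLFin F) (φ : Y U → ℂ) : doubleOp x φ = (double U x).op φ := by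
  classical
  funext y
  refine finsum_congr fun b => ?_
  conv_rhs => rw [← QuotientGroup.out_eq' y.2, ← QuotientGroup.out_eq' b, kernel_mk,
    QuotientGroup.out_eq' b]
  simp only [double]
  split_ifs <;> simp

/-- `T_v` is self-adjoint. -/
theorem star_heckeAt {v : Places.FinPlace F} (hU : Places.IsGoodAt U v) :
    star (Places.heckeAt U v hU) = Places.heckeAt U v hU :=
  star_eq_of_symm (fun x => by
    classical
    show (starRingEnd ℂ) (if x ∈ Places.heckeSet U v then 1 else 0) =
      if x ∈ Places.heckeSet U v then 1 else 0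
    split_ifs <;> simp) (Places.heckeAt_inv hU)

/-- Every coset of the support has a representative equal to one outside `S`. -/
def SupportedIn (f : HeckeFn U) (S : Set (Places.FinPlace F)) : Prop :=
  ∀ g, f.toFun g ≠ 0 → ∃ r, r⁻¹ * g ∈ U.toSubgroup ∧ ∀ w ∉ S, Places.glPlace w r = 1

/-- Being supported in a set of places is monotone. -/
theorem SupportedIn.mono {f : HeckeFn U} {S T : Set (Places.FinPlace F)} (h : f.SupportedIn S)
    (hST : S ⊆ T) : f.SupportedIn T := fun g hg =>
  (h g hg).imp fun _ hr => ⟨hr.1, fun w hw => hr.2 w fun hwS => hw (hST hwS)⟩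

/-- `T_v` is supported at `v`. -/
theorem supportedIn_heckeAt {v : Places.FinPlace F} (hU : Places.IsGoodAt U v) :
    (Places.heckeAt U v hU).SupportedIn {v} := by
  classical
  intro g hg
  have hg' : g ∈ Places.heckeSet U v := by_contra fun h => hg (if_neg h)
  obtain ⟨r, hr⟩ := (Places.mem_heckeSet_iff hU).1 hg'
  exact ⟨_, hr, fun w hw => Places.glPlace_localGL_ne hw _⟩

/-- A sum of functions supported in `S` is supported in `S`. -/
theorem SupportedIn.add {f g : HeckeFn U} {S : Set (Places.FinPlace F)} (hf : f.SupportedIn S)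
    (hg : g.SupportedIn S) : (f + g).SupportedIn S := fun x hx => by
  by_cases h : f.toFun x = 0
  · exact hg x fun h' => hx (by rw [toFun_add, h, h', add_zero])
  · exact hf x h

/-- A multiple of a function supported in `S` is supported in `S`. -/
theorem SupportedIn.smul {f : HeckeFn U} {S : Set (Places.FinPlace F)} (hf : f.SupportedIn S)
    (c : ℂ) : (c • f).SupportedIn S := fun x hx =>
  hf x fun h => hx (by rw [toFun_smul, h, mul_zero])

/-- The cosets of the first row have representatives equal to one outside `S`. -/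
theorem SupportedIn.exists_rep {f : HeckeFn U} {S : Set (Places.FinPlace F)} (hf : f.SupportedIn S)
    {b : GLFin F ⧸ U.toSubgroup} (hb : b ∈ f.row (QuotientGroup.mk 1)) :
    ∃ r, QuotientGroup.mk r = b ∧ ∀ w ∉ S, Places.glPlace w r = 1 := by
  rw [mem_row] at hb
  induction b using QuotientGroup.induction_on with | H g => ?_
  rw [← toFun_eq_kernel] at hb
  obtain ⟨r, hr, hr'⟩ := hf g hb
  exact ⟨r, QuotientGroup.eq.2 hr, hr'⟩

theorem act_mk (f : HeckeFn U) (u : GLFin F ⧸ U.toSubgroup → ℂ) (x : GLFin F) :
    f.act u (QuotientGroup.mk x) = ∑ b ∈ f.row (QuotientGroup.mk 1),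
      f.kernel (QuotientGroup.mk 1) b * u (x • b) := by
  rw [show (QuotientGroup.mk x : GLFin F ⧸ U.toSubgroup) = x • QuotientGroup.mk 1 by
    rw [MulAction.Quotient.smul_mk, smul_eq_mul, mul_one], act_congr_smul, act_eq_sum]

theorem act_act_of_reps {f g : HeckeFn U} (rf rg : GLFin F ⧸ U.toSubgroup → GLFin F)
    (hf : ∀ b ∈ f.row (QuotientGroup.mk 1), QuotientGroup.mk (rf b) = b)
    (hg : ∀ d ∈ g.row (QuotientGroup.mk 1), QuotientGroup.mk (rg d) = d)
    (u : GLFin F ⧸ U.toSubgroup → ℂ) (x : GLFin F) :
    f.act (g.act u) (QuotientGroup.mk x) =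
      ∑ b ∈ f.row (QuotientGroup.mk 1), ∑ d ∈ g.row (QuotientGroup.mk 1),
        f.kernel (QuotientGroup.mk 1) b * g.kernel (QuotientGroup.mk 1) d *
          u (QuotientGroup.mk (x * (rf b * rg d))) := by
  rw [act_mk]
  refine Finset.sum_congr rfl fun b hb => ?_
  rw [show x • b = QuotientGroup.mk (x * rf b) by
    rw [← smul_eq_mul, ← MulAction.Quotient.smul_mk, hf b hb], act_mk, Finset.mul_sum]
  refine Finset.sum_congr rfl fun d hd => ?_
  rw [mul_assoc]
  congr 3
  rw [← mul_assoc x, ← smul_eq_mul (x * rf b) (rg d), ← MulAction.Quotient.smul_mk, hg d hd]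

/-- Functions supported at disjoint sets of places commute. -/
theorem SupportedIn.commute {f g : HeckeFn U} {S T : Set (Places.FinPlace F)}
    (hf : f.SupportedIn S) (hg : g.SupportedIn T) (hST : Disjoint S T) : Commute f g := by
  classical
  let rf : GLFin F ⧸ U.toSubgroup → GLFin F := fun b =>
    if h : b ∈ f.row (QuotientGroup.mk 1) then (hf.exists_rep h).choose else 1
  let rg : GLFin F ⧸ U.toSubgroup → GLFin F := fun b =>
    if h : b ∈ g.row (QuotientGroup.mk 1) then (hg.exists_rep h).choose else 1
  have hrf : ∀ b ∈ f.row (QuotientGroup.mk 1), QuotientGroup.mk (rf b) = b ∧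
      ∀ w ∉ S, Places.glPlace w (rf b) = 1 := fun b hb => by
    simp only [rf, dif_pos hb]; exact (hf.exists_rep hb).choose_spec
  have hrg : ∀ b ∈ g.row (QuotientGroup.mk 1), QuotientGroup.mk (rg b) = b ∧
      ∀ w ∉ T, Places.glPlace w (rg b) = 1 := fun b hb => by
    simp only [rg, dif_pos hb]; exact (hg.exists_rep hb).choose_spec
  refine commute_of_op fun φ => funext fun ⟨P, c⟩ => ?_
  induction c using QuotientGroup.induction_on with | H x => ?_
  rw [op_eq_act, op_eq_act]
  refine (act_act_of_reps rf rg (fun b hb => (hrf b hb).1) (fun b hb => (hrg b hb).1)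
    (fun c => φ (P, c)) x).trans (Eq.trans ?_ (act_act_of_reps rg rf (fun b hb => (hrg b hb).1)
      (fun b hb => (hrf b hb).1) (fun c => φ (P, c)) x).symm)
  rw [Finset.sum_comm]
  refine Finset.sum_congr rfl fun d hd => Finset.sum_congr rfl fun b hb => ?_
  have hc : rf b * rg d = rg d * rf b := Places.gl_ext fun w => by
    by_cases hw : w ∈ S
    · rw [map_mul, map_mul, (hrg d hd).2 w (Set.disjoint_left.1 hST hw), one_mul, mul_one]
    · rw [map_mul, map_mul, (hrf b hb).2 w hw, one_mul, mul_one]
  rw [hc, mul_comm (f.kernel _ b)]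

/-- A product of functions supported in `S` is supported in `S`. -/
theorem SupportedIn.mul {f g : HeckeFn U} {S : Set (Places.FinPlace F)} (hf : f.SupportedIn S)
    (hg : g.SupportedIn S) : (f * g).SupportedIn S := by
  intro z hz
  rw [toFun_eq_kernel, kernel_mul, act_eq_sum] at hz
  obtain ⟨b, hb, hne⟩ := Finset.exists_ne_zero_of_sum_ne_zero hz
  obtain ⟨r, hr, hr'⟩ := hf.exists_rep hb
  have hne' : g.toFun (r⁻¹ * z) ≠ 0 := by
    rw [← kernel_mk, hr]; exact right_ne_zero_of_mul hne
  obtain ⟨s, hs, hs'⟩ := hg _ hne'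
  exact ⟨r * s, by rwa [_root_.mul_inv_rev, mul_assoc],
    fun w hw => by rw [map_mul, hr' w hw, hs' w hw, one_mul]⟩

/-- `T_v` and `T_w` commute in the algebra. -/
theorem commute_heckeAt {v w : Places.FinPlace F} (h : v ≠ w) (hv : Places.IsGoodAt U v)
    (hw : Places.IsGoodAt U w) :
    Commute (Places.heckeAt U v hv) (Places.heckeAt U w hw) :=
  (supportedIn_heckeAt hv).commute (supportedIn_heckeAt hw) (Set.disjoint_singleton.2 h)

end Fermat.Agent.LT.HeckeFn
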