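import Fermat.Agent.LT.Setup.Level

/-!
# Double cosets of a level contain finitely many left cosets

For a level `U` only finitely many cosets `g U` have a representative with `g` and `g⁻¹` of bounded
denominator; hence each double coset `U x U` is a finite union of left cosets, and the set of
inverses of a finite union of left cosets is again contained in one.
-/

set_option autoImplicit false

noncomputable section

open scoped NumberField Matrix

namespace Fermat.Agent.LT.HeckeAlg

variable {F : Type*} [Field F] [NumberField F]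

/-- `g` and `g⁻¹` have denominators dividing `M`. -/
def HasDen (M : ℕ) (g : GLFin F) : Prop :=
  (∀ i j, (M : FinAdele F) * g.val i j ∈ integralAdele F) ∧
    ∀ i j, (M : FinAdele F) * (g⁻¹).val i j ∈ integralAdele F

/-- The cosets with a representative of bounded denominator are finite in number. -/
theorem finite_hasDen (U : Level F) {M : ℕ} (hM : 0 < M) :
    {c : GLFin F ⧸ U.toSubgroup | ∃ g, HasDen M g ∧ QuotientGroup.mk g = c}.Finite := by
  classical
  obtain ⟨N, hN, hU⟩ := U.exists_principal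
  obtain ⟨κ, hκ, cls, hcls⟩ := Reduction.exists_residue (F := F) (M * M * N) (by positivity)
  let rep : GLFin F ⧸ U.toSubgroup → GLFin F := fun c =>
    if h : ∃ g, HasDen M g ∧ QuotientGroup.mk g = c then h.choose else 1
  refine Set.Finite.of_finite_image (Set.toFinite
    ((fun c : GLFin F ⧸ U.toSubgroup => fun p : Fin 2 × Fin 2 =>
      cls ((M : FinAdele F) * (rep c).val p.1 p.2)) '' _)) fun c hc d hd hcd => ?_
  obtain ⟨⟨hi, hi'⟩, hce⟩ : HasDen M (rep c) ∧ QuotientGroup.mk (rep c) = c := by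
    simp only [rep, dif_pos (show ∃ g, HasDen M g ∧ QuotientGroup.mk g = c from hc)]
    exact Exists.choose_spec hc
  obtain ⟨⟨hj, hj'⟩, hde⟩ : HasDen M (rep d) ∧ QuotientGroup.mk (rep d) = d := by
    simp only [rep, dif_pos (show ∃ g, HasDen M g ∧ QuotientGroup.mk g = d from hd)]
    exact Exists.choose_spec hd
  choose z hz ez using fun i j =>
    hcls _ _ (hj i j) (hi i j) (congrFun hcd (i, j)).symm
  have hMu : IsUnit (M : FinAdele F) := by
    rw [← map_natCast (finIncl F)]
    exact (isUnit_iff_ne_zero.mpr (Nat.cast_ne_zero.mpr hM.ne')).map _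
  have hdc : ∀ i j, (rep d).val i j = (rep c).val i j + ((M * N : ℕ) : FinAdele F) * z i j := by
    intro i j
    refine hMu.mul_left_cancel ?_
    rw [ez]
    push_cast; ring
  rw [← hce, ← hde, QuotientGroup.eq]
  refine hU _ fun i j => ?_
  refine ⟨∑ k, ((M : FinAdele F) * ((rep c)⁻¹).val i k) * z k j,
    sum_mem fun k _ => mul_mem (hi' i k) (hz k j),
    -(∑ k, ((M : FinAdele F) * ((rep d)⁻¹).val i k) * z k j),
    neg_mem (sum_mem fun k _ => mul_mem (hj' i k) (hz k j)), ?_, ?_⟩
  · have h1 : (((rep c)⁻¹).val * (rep c).val) i j =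
        (1 : Matrix (Fin 2) (Fin 2) (FinAdele F)) i j := by
      rw [← Units.val_mul, inv_mul_cancel, Units.val_one]
    simp only [Units.val_mul, Matrix.mul_apply, hdc, Fin.sum_univ_two] at h1 ⊢
    rw [← h1]
    push_cast; ring
  · have h1 : (((rep d)⁻¹).val * (rep d).val) i j =
        (1 : Matrix (Fin 2) (Fin 2) (FinAdele F)) i j := by
      rw [← Units.val_mul, inv_mul_cancel, Units.val_one]
    simp only [mul_inv_rev, inv_inv, Units.val_mul, Matrix.mul_apply, hdc, Fin.sum_univ_two] at h1 ⊢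
    rw [← h1]
    push_cast; ring

/-- `U x U` consists of finitely many left cosets. -/
theorem finite_doubleCoset (U : Level F) (x : GLFin F) :
    ((QuotientGroup.mk : GLFin F → GLFin F ⧸ U.toSubgroup) ''
      {g | ∃ u ∈ U.toSubgroup, ∃ v ∈ U.toSubgroup, g = u * x * v}).Finite := by
  obtain ⟨M, hM, hx⟩ := Reduction.exists_denominator (F := F)
    (ι := (Fin 2 × Fin 2) ⊕ (Fin 2 × Fin 2))
    (Sum.elim (fun p => x.val p.1 p.2) fun p => (x⁻¹).val p.1 p.2)
  refine (finite_hasDen U hM).subset ?_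
  rintro _ ⟨g, ⟨u, hu, v, hv, rfl⟩, rfl⟩
  obtain ⟨a, k, hk, rfl⟩ := U.le_maximal u hu
  have hk1 : ∀ (h : GLFin F), IsPrincipal F 1 h → ∀ i j, h.val i j ∈ integralAdele F :=
    fun h hh i j => by
      obtain ⟨b, hb, e⟩ := hh.left i j
      rw [e, Nat.cast_one, one_mul, Matrix.one_apply]
      exact add_mem (by split <;> simp [zero_mem, one_mem]) hb
  refine ⟨k * x, ⟨fun i j => ?_, fun i j => ?_⟩, ?_⟩
  · rw [Units.val_mul, Matrix.mul_apply, Finset.mul_sum]
    refine sum_mem fun l _ => ?_
    rw [mul_left_comm]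
    exact mul_mem (hk1 k hk i l) (hx (.inl (l, j)))
  · rw [mul_inv_rev, Units.val_mul, Matrix.mul_apply, Finset.mul_sum]
    refine sum_mem fun l _ => ?_
    rw [← mul_assoc]
    exact mul_mem (hx (.inr (i, l))) (hk1 _ hk.inv l j)
  · refine QuotientGroup.eq.mpr ?_
    rw [mul_assoc (scalarFin F a) k x, scalarFin_comm, mul_assoc, inv_mul_cancel_left]
    exact mul_mem (U.scalar_mem a) hv

/-- The inverse of a set of finitely many cosets is covered by finitely many double cosets. -/
theorem finite_inv_support (U : Level F) {s : Set (GLFin F)}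
    (hs : ((QuotientGroup.mk : GLFin F → GLFin F ⧸ U.toSubgroup) '' s).Finite) :
    ((QuotientGroup.mk : GLFin F → GLFin F ⧸ U.toSubgroup) '' {g | g⁻¹ ∈ s}).Finite := by
  refine (hs.biUnion fun c _ => finite_doubleCoset U (Quotient.out c)⁻¹).subset ?_
  rintro _ ⟨g, hg, rfl⟩
  have hu : (Quotient.out (QuotientGroup.mk g⁻¹ : GLFin F ⧸ U.toSubgroup))⁻¹ * g⁻¹ ∈
      U.toSubgroup := QuotientGroup.eq.mp (QuotientGroup.out_eq' _)
  refine Set.mem_biUnion ⟨g⁻¹, hg, rfl⟩ ⟨g, ⟨_, inv_mem hu, 1, one_mem _, ?_⟩, rfl⟩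
  group

end Fermat.Agent.LT.HeckeAlg
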