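import Fermat.Agent.LT.HeckeOp
import Fermat.Agent.LT.HeckeAlg.Finite
import Mathlib.Algebra.Ring.InjSurj
import Mathlib.Algebra.Module.Basic
import Mathlib.Algebra.Star.Basic

/-!
# The monoid of Hecke functions

The product of two Hecke functions is the composition of their kernels `∑ᶠ b, f(a, b) g(b, c)`, the
unit is the indicator of the level, and `op` is multiplicative.
-/

set_option autoImplicit false

noncomputable section

open scoped ComplexConjugate

namespace Fermat.Agent.LT.HeckeFn

variable {F : Type*} [Field F] [NumberField F] {U : Level F}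

/-- The kernel as an operator on functions on the cosets. -/
def act (h : HeckeFn U) (u : GLFin F ⧸ U.toSubgroup → ℂ) (a : GLFin F ⧸ U.toSubgroup) : ℂ :=
  ∑ᶠ b, h.kernel a b * u b

/-- The operator is the action of the kernel on the coset variable. -/
theorem op_eq_act (h : HeckeFn U) (φ : Y U → ℂ) (y : Y U) :
    h.op φ y = h.act (fun b => φ (y.1, b)) y.2 := rfl

/-- A Hecke function is the first row of its kernel. -/
theorem toFun_eq_kernel (h : HeckeFn U) (x : GLFin F) :
    h.toFun x = h.kernel (QuotientGroup.mk 1) (QuotientGroup.mk x) := by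
  rw [kernel_mk, inv_one, one_mul]

/-- Hecke functions with the same kernel are equal. -/
theorem ext_kernel {f g : HeckeFn U} (h : ∀ a b, f.kernel a b = g.kernel a b) : f = g := by
  have e : f.toFun = g.toFun := funext fun x => by rw [toFun_eq_kernel, toFun_eq_kernel, h]
  cases f; cases g; cases e; rfl

/-- Hecke functions with the same values are equal. -/
theorem ext_toFun {f g : HeckeFn U} (h : ∀ x, f.toFun x = g.toFun x) : f = g := by
  cases f; cases g; cases funext h; rfl

theorem finite_row (h : HeckeFn U) (a : GLFin F ⧸ U.toSubgroup) :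
    {b | h.kernel a b ≠ 0}.Finite := by
  induction a using QuotientGroup.induction_on with | H g => ?_
  refine (h.finite_support.image fun b => g • b).subset fun b hb => ?_
  induction b using QuotientGroup.induction_on with | H x => ?_
  exact ⟨QuotientGroup.mk (g⁻¹ * x), ⟨g⁻¹ * x, hb, rfl⟩, by
    show g • (QuotientGroup.mk (g⁻¹ * x) : GLFin F ⧸ U.toSubgroup) = _
    rw [MulAction.Quotient.smul_mk, smul_eq_mul, mul_inv_cancel_left]⟩

/-- The cosets paired with `a`. -/
def row (h : HeckeFn U) (a : GLFin F ⧸ U.toSubgroup) : Finset (GLFin F ⧸ U.toSubgroup) :=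
  (h.finite_row a).toFinset

/-- Membership in a row of the kernel. -/
theorem mem_row {h : HeckeFn U} {a b : GLFin F ⧸ U.toSubgroup} :
    b ∈ h.row a ↔ h.kernel a b ≠ 0 := by
  simp [row]

/-- The action as a sum over a finite set containing the row. -/
theorem act_eq_sum_of_subset (h : HeckeFn U) (u : GLFin F ⧸ U.toSubgroup → ℂ)
    {a : GLFin F ⧸ U.toSubgroup} {s : Finset (GLFin F ⧸ U.toSubgroup)} (hs : h.row a ⊆ s) :
    h.act u a = ∑ b ∈ s, h.kernel a b * u b :=
  finsum_eq_sum_of_support_subset _ fun b hb => hs (mem_row.2 fun h0 => hb (by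
    show h.kernel a b * u b = 0
    rw [h0, zero_mul]))

/-- The action as a sum over the row. -/
theorem act_eq_sum (h : HeckeFn U) (u : GLFin F ⧸ U.toSubgroup → ℂ) (a : GLFin F ⧸ U.toSubgroup) :
    h.act u a = ∑ b ∈ h.row a, h.kernel a b * u b :=
  h.act_eq_sum_of_subset u subset_rfl

/-- The operator as a sum over the row. -/
theorem op_eq_sum (h : HeckeFn U) (φ : Y U → ℂ) (y : Y U) :
    h.op φ y = ∑ b ∈ h.row y.2, h.kernel y.2 b * φ (y.1, b) :=
  (op_eq_act h φ y).trans (h.act_eq_sum _ _)

/-- The action commutes with translations. -/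
theorem act_congr_smul (h : HeckeFn U) (g : GLFin F) (u : GLFin F ⧸ U.toSubgroup → ℂ)
    (a : GLFin F ⧸ U.toSubgroup) : h.act u (g • a) = h.act (fun b => u (g • b)) a := by
  refine (finsum_eq_of_bijective (fun b => g • b) (MulAction.bijective g) fun b => ?_).symm
  rw [kernel_smul]

/-- `one` is the indicator of the level. -/
instance instOne : One (HeckeFn U) := ⟨by
  classical exact
  { toFun := fun g => if g ∈ U.toSubgroup then 1 else 0
    left_inv' := fun u g hu => by simp only [U.toSubgroup.mul_mem_cancel_left hu]
    right_inv' := fun g u hu => by simp only [U.toSubgroup.mul_mem_cancel_right hu]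
    finite_support := (Set.finite_singleton (QuotientGroup.mk 1)).subset (by
      rintro _ ⟨g, hg, rfl⟩
      have : g ∈ U.toSubgroup := by
        by_contra h
        exact hg (if_neg h)
      exact QuotientGroup.eq.mpr (by simpa using this)) }⟩

open Classical in
/-- The kernel of one is the identity matrix. -/
theorem kernel_one (a b : GLFin F ⧸ U.toSubgroup) :
    (1 : HeckeFn U).kernel a b = if a = b then 1 else 0 := by
  induction a using QuotientGroup.induction_on with | H g => ?_
  induction b using QuotientGroup.induction_on with | H x => ?_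
  exact if_congr QuotientGroup.eq.symm rfl rfl

theorem act_one (u : GLFin F ⧸ U.toSubgroup → ℂ) (a : GLFin F ⧸ U.toSubgroup) :
    (1 : HeckeFn U).act u a = u a := by
  classical
  rw [act, finsum_eq_single _ a]
  · rw [kernel_one, if_pos rfl, one_mul]
  · intro b hb
    rw [kernel_one, if_neg (Ne.symm hb), zero_mul]

/-- The product of two Hecke functions. -/
instance instMul : Mul (HeckeFn U) := ⟨fun f g =>
  { toFun := fun x => f.act (fun b => g.kernel b (QuotientGroup.mk x)) (QuotientGroup.mk 1)
    left_inv' := fun u x hu => by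
      have h1 : u • (QuotientGroup.mk 1 : GLFin F ⧸ U.toSubgroup) = QuotientGroup.mk 1 := by
        rw [MulAction.Quotient.smul_mk, smul_eq_mul, mul_one]
        exact QuotientGroup.eq.mpr (by simpa using hu)
      show f.act (fun b => g.kernel b (QuotientGroup.mk (u * x))) (QuotientGroup.mk 1) = _
      conv_lhs => rw [← h1, act_congr_smul]
      simp only [← smul_eq_mul, ← MulAction.Quotient.smul_mk, kernel_smul]
    right_inv' := fun x u hu => by
      have : (QuotientGroup.mk (x * u) : GLFin F ⧸ U.toSubgroup) = QuotientGroup.mk x :=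
        QuotientGroup.eq.mpr (by simpa using hu)
      simp only [this]
    finite_support := by
      refine ((f.row (QuotientGroup.mk 1)).finite_toSet.biUnion fun b _ => g.finite_row b).subset ?_
      rintro _ ⟨x, hx, rfl⟩
      obtain ⟨b, hb⟩ := not_forall.1 (fun h => hx (finsum_eq_zero_of_forall_eq_zero h))
      exact Set.mem_biUnion (mem_row.2 fun h0 => hb (by rw [h0, zero_mul]))
        (fun h0 => hb (mul_eq_zero_of_right _ h0)) }⟩

/-- The kernel of a product. -/
theorem kernel_mul (f g : HeckeFn U) (a c : GLFin F ⧸ U.toSubgroup) :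
    (f * g).kernel a c = f.act (fun b => g.kernel b c) a := by
  induction a using QuotientGroup.induction_on with | H x => ?_
  induction c using QuotientGroup.induction_on with | H z => ?_
  have hx : (QuotientGroup.mk x : GLFin F ⧸ U.toSubgroup) = x • QuotientGroup.mk 1 := by
    rw [MulAction.Quotient.smul_mk, smul_eq_mul, mul_one]
  show f.act (fun b => g.kernel b (QuotientGroup.mk (x⁻¹ * z))) (QuotientGroup.mk 1) = _
  conv_rhs => rw [hx, act_congr_smul]
  congr 1
  funext b
  rw [← kernel_smul g x b]
  congr 1
  rw [MulAction.Quotient.smul_mk, smul_eq_mul, mul_inv_cancel_left]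

/-- The action of a product is the composite of the actions. -/
theorem act_mul (f g : HeckeFn U) (u : GLFin F ⧸ U.toSubgroup → ℂ) (a : GLFin F ⧸ U.toSubgroup) :
    (f * g).act u a = f.act (g.act u) a := by
  classical
  set t := (f.row a).biUnion g.row with ht
  have hsub : (f * g).row a ⊆ t := fun c hc => by
    rw [mem_row, kernel_mul, act_eq_sum] at hc
    obtain ⟨b, hb, hne⟩ := Finset.exists_ne_zero_of_sum_ne_zero hc
    exact Finset.mem_biUnion.2 ⟨b, hb, mem_row.2 (right_ne_zero_of_mul hne)⟩
  rw [act_eq_sum_of_subset _ u hsub, act_eq_sum]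
  simp only [kernel_mul, act_eq_sum f, Finset.sum_mul]
  rw [Finset.sum_comm]
  refine Finset.sum_congr rfl fun b hb => ?_
  rw [act_eq_sum_of_subset g u (Finset.subset_biUnion_of_mem g.row hb), Finset.mul_sum]
  simp only [mul_assoc]
  rfl

/-- `op` is multiplicative. -/
theorem op_mul (f g : HeckeFn U) (φ : Y U → ℂ) : (f * g).op φ = f.op (g.op φ) := by
  funext y
  rw [op_eq_act, act_mul, op_eq_act]
  rfl

/-- The action commutes with scalars. -/
theorem act_const_mul (h : HeckeFn U) (c : ℂ) (u : GLFin F ⧸ U.toSubgroup → ℂ)
    (a : GLFin F ⧸ U.toSubgroup) : h.act (fun b => c * u b) a = c * h.act u a := by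
  rw [act_eq_sum, act_eq_sum, Finset.mul_sum]
  exact Finset.sum_congr rfl fun b _ => by ring

/-- The action is additive in the function. -/
theorem act_add_fun (h : HeckeFn U) (u w : GLFin F ⧸ U.toSubgroup → ℂ)
    (a : GLFin F ⧸ U.toSubgroup) : h.act (fun b => u b + w b) a = h.act u a + h.act w a := by
  rw [act_eq_sum, act_eq_sum, act_eq_sum, ← Finset.sum_add_distrib]
  exact Finset.sum_congr rfl fun b _ => mul_add _ _ _

/-- The operator commutes with scalars. -/
theorem op_smul_fun (h : HeckeFn U) (c : ℂ) (φ : Y U → ℂ) : h.op (c • φ) = c • h.op φ :=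
  funext fun y => by
    rw [Pi.smul_apply, smul_eq_mul, op_eq_act, op_eq_act, ← act_const_mul]; rfl

/-- The operator is additive in the function. -/
theorem op_add_fun (h : HeckeFn U) (φ ψ : Y U → ℂ) : h.op (φ + ψ) = h.op φ + h.op ψ :=
  funext fun y => by rw [Pi.add_apply, op_eq_act, op_eq_act, op_eq_act, ← act_add_fun]; rfl

/-- Associativity. -/
protected theorem mul_assoc' (f g h : HeckeFn U) : f * g * h = f * (g * h) :=
  ext_kernel fun a c => by
    rw [kernel_mul, act_mul, kernel_mul]
    congr 1
    funext b
    rw [kernel_mul]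

/-- One is a left identity. -/
protected theorem one_mul' (f : HeckeFn U) : 1 * f = f :=
  ext_kernel fun a c => by rw [kernel_mul, act_one]

/-- One is a right identity. -/
protected theorem mul_one' (f : HeckeFn U) : f * 1 = f :=
  ext_kernel fun a c => by
    classical
    rw [kernel_mul, act, finsum_eq_single _ c]
    · rw [kernel_one, if_pos rfl, mul_one]
    · intro b hb
      rw [kernel_one, if_neg hb, mul_zero]

instance instMonoid : Monoid (HeckeFn U) where
  mul_assoc := HeckeFn.mul_assoc'
  one_mul := HeckeFn.one_mul'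
  mul_one := HeckeFn.mul_one'

end Fermat.Agent.LT.HeckeFn
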