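import Fermat.Agent.LT.HeckeAlg.Basic
import Mathlib.Algebra.Algebra.Basic
import Mathlib.Data.Complex.BigOperators

/-!
# The star algebra of Hecke functions

Hecke functions of a level form a `ℂ`-algebra with the star `star h (g) = conj (h g⁻¹)`, which
transposes and conjugates the kernel; the operator `op` reflects and preserves commutation.
-/

set_option autoImplicit false

noncomputable section

open scoped ComplexConjugate

namespace Fermat.Agent.LT.HeckeFn

variable {F : Type*} [Field F] [NumberField F] {U : Level F}

instance instZero : Zero (HeckeFn U) := ⟨{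
  toFun := fun _ => 0
  left_inv' := fun _ _ _ => rfl
  right_inv' := fun _ _ _ => rfl
  finite_support := Set.Finite.image _ (Set.finite_empty.subset fun _ hg => (hg rfl).elim) }⟩

instance instAdd : Add (HeckeFn U) := ⟨fun f g => {
  toFun := fun x => f.toFun x + g.toFun x
  left_inv' := fun u x hu => by simp only [f.left_inv' u x hu, g.left_inv' u x hu]
  right_inv' := fun x u hu => by simp only [f.right_inv' x u hu, g.right_inv' x u hu]
  finite_support := (f.finite_support.union g.finite_support).subset (by
    rintro _ ⟨x, hx, rfl⟩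
    by_cases h : f.toFun x = 0
    · exact Or.inr ⟨x, fun h' => hx (by simp [h, h']), rfl⟩
    · exact Or.inl ⟨x, h, rfl⟩) }⟩

instance instSMul : SMul ℂ (HeckeFn U) := ⟨fun c f => {
  toFun := fun x => c * f.toFun x
  left_inv' := fun u x hu => by simp only [f.left_inv' u x hu]
  right_inv' := fun x u hu => by simp only [f.right_inv' x u hu]
  finite_support := f.finite_support.subset (Set.image_mono fun x hx h => hx (by simp [h])) }⟩

instance instNeg : Neg (HeckeFn U) := ⟨fun f => (-1 : ℂ) • f⟩

/-- `star h (g) = conj (h g⁻¹)`. -/
instance instStar : Star (HeckeFn U) := ⟨fun f => {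
  toFun := fun x => conj (f.toFun x⁻¹)
  left_inv' := fun u x hu => by
    simp only [_root_.mul_inv_rev, f.right_inv' _ _ (inv_mem hu)]
  right_inv' := fun x u hu => by
    simp only [_root_.mul_inv_rev, f.left_inv' _ _ (inv_mem hu)]
  finite_support := (HeckeAlg.finite_inv_support U f.finite_support).subset
    (Set.image_mono fun x hx h => hx (by simp [h])) }⟩

theorem toFun_zero (x : GLFin F) : (0 : HeckeFn U).toFun x = 0 := rfl

/-- Addition is pointwise. -/
theorem toFun_add (f g : HeckeFn U) (x : GLFin F) : (f + g).toFun x = f.toFun x + g.toFun x := rfl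

/-- Scalar multiplication is pointwise. -/
theorem toFun_smul (c : ℂ) (f : HeckeFn U) (x : GLFin F) : (c • f).toFun x = c * f.toFun x := rfl

theorem toFun_neg (f : HeckeFn U) (x : GLFin F) : (-f).toFun x = -f.toFun x :=
  (toFun_smul _ _ _).trans (neg_one_mul _)

theorem toFun_star (f : HeckeFn U) (x : GLFin F) : (star f).toFun x = conj (f.toFun x⁻¹) := rfl

theorem kernel_zero (a b : GLFin F ⧸ U.toSubgroup) : (0 : HeckeFn U).kernel a b = 0 :=
  Quotient.inductionOn₂' a b fun _ _ => rfl

theorem kernel_add (f g : HeckeFn U) (a b : GLFin F ⧸ U.toSubgroup) :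
    (f + g).kernel a b = f.kernel a b + g.kernel a b :=
  Quotient.inductionOn₂' a b fun _ _ => rfl

theorem kernel_smul_scalar (c : ℂ) (f : HeckeFn U) (a b : GLFin F ⧸ U.toSubgroup) :
    (c • f).kernel a b = c * f.kernel a b :=
  Quotient.inductionOn₂' a b fun _ _ => rfl

/-- The kernel of the adjoint is the conjugate transpose. -/
theorem kernel_star (f : HeckeFn U) (a b : GLFin F ⧸ U.toSubgroup) :
    (star f).kernel a b = conj (f.kernel b a) := by
  induction a using QuotientGroup.induction_on with | H x => ?_
  induction b using QuotientGroup.induction_on with | H y => ?_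
  rw [kernel_mk, kernel_mk, toFun_star, _root_.mul_inv_rev, inv_inv]

theorem act_add (f g : HeckeFn U) (u : GLFin F ⧸ U.toSubgroup → ℂ) (a : GLFin F ⧸ U.toSubgroup) :
    (f + g).act u a = f.act u a + g.act u a := by
  classical
  have h : (f + g).row a ⊆ f.row a ∪ g.row a := fun b hb => by
    rw [mem_row, kernel_add] at hb
    rw [Finset.mem_union, mem_row, mem_row]
    by_contra h
    push Not at h
    exact hb (by rw [h.1, h.2, add_zero])
  rw [act_eq_sum_of_subset _ u h, act_eq_sum_of_subset f u Finset.subset_union_left,
    act_eq_sum_of_subset g u Finset.subset_union_right, ← Finset.sum_add_distrib]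
  exact Finset.sum_congr rfl fun b _ => by rw [kernel_add, add_mul]

theorem act_smul (c : ℂ) (f : HeckeFn U) (u : GLFin F ⧸ U.toSubgroup → ℂ)
    (a : GLFin F ⧸ U.toSubgroup) : (c • f).act u a = c * f.act u a := by
  have h : (c • f).row a ⊆ f.row a := fun b hb => by
    rw [mem_row, kernel_smul_scalar] at hb
    exact mem_row.2 (right_ne_zero_of_mul hb)
  rw [act_eq_sum_of_subset _ u h, act_eq_sum, Finset.mul_sum]
  exact Finset.sum_congr rfl fun b _ => by rw [kernel_smul_scalar, mul_assoc]

theorem act_zero (u : GLFin F ⧸ U.toSubgroup → ℂ) (a : GLFin F ⧸ U.toSubgroup) :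
    (0 : HeckeFn U).act u a = 0 :=
  finsum_eq_zero_of_forall_eq_zero fun b => by rw [kernel_zero, zero_mul]

instance instAddCommGroup : AddCommGroup (HeckeFn U) where
  add_assoc _ _ _ := ext_toFun fun _ => add_assoc _ _ _
  zero_add _ := ext_toFun fun _ => zero_add _
  add_zero _ := ext_toFun fun _ => add_zero _
  add_comm _ _ := ext_toFun fun _ => add_comm _ _
  neg_add_cancel f := ext_toFun fun x => by
    rw [toFun_add, toFun_neg, neg_add_cancel, toFun_zero]
  nsmul := nsmulRec
  zsmul := zsmulRec

instance instModule : Module ℂ (HeckeFn U) where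
  one_smul _ := ext_toFun fun _ => one_mul _
  mul_smul _ _ _ := ext_toFun fun _ => mul_assoc _ _ _
  smul_zero _ := ext_toFun fun _ => mul_zero _
  smul_add _ _ _ := ext_toFun fun _ => mul_add _ _ _
  add_smul _ _ _ := ext_toFun fun _ => add_mul _ _ _
  zero_smul _ := ext_toFun fun _ => zero_mul _

instance instRing : Ring (HeckeFn U) where
  left_distrib f g h := ext_kernel fun a c => by
    rw [kernel_add, kernel_mul, kernel_mul, kernel_mul, ← act_add_fun]
    simp only [kernel_add]
  right_distrib f g h := ext_kernel fun a c => by
    rw [kernel_add, kernel_mul, kernel_mul, kernel_mul, act_add]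
  zero_mul f := ext_kernel fun a c => by rw [kernel_mul, act_zero, kernel_zero]
  mul_zero f := ext_kernel fun a c => by
    rw [kernel_mul, kernel_zero]
    exact finsum_eq_zero_of_forall_eq_zero fun b => by simp [kernel_zero]
  mul_assoc := HeckeFn.mul_assoc'
  one_mul := HeckeFn.one_mul'
  mul_one := HeckeFn.mul_one'
  neg_add_cancel := neg_add_cancel
  zsmul := zsmulRec

theorem smul_mul' (c : ℂ) (f g : HeckeFn U) : c • f * g = c • (f * g) :=
  ext_kernel fun a b => by rw [kernel_smul_scalar, kernel_mul, kernel_mul, act_smul]

theorem mul_smul_comm' (c : ℂ) (f g : HeckeFn U) : f * c • g = c • (f * g) :=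
  ext_kernel fun a b => by
    rw [kernel_smul_scalar, kernel_mul, kernel_mul, ← act_const_mul]
    simp only [kernel_smul_scalar]

instance instAlgebra : Algebra ℂ (HeckeFn U) := Algebra.ofModule smul_mul' mul_smul_comm'

theorem star_star' (f : HeckeFn U) : star (star f) = f :=
  ext_kernel fun a b => by rw [kernel_star, kernel_star, Complex.conj_conj]

theorem star_add' (f g : HeckeFn U) : star (f + g) = star f + star g :=
  ext_kernel fun a b => by simp only [kernel_star, kernel_add, map_add]

/-- `star` reverses products. -/
theorem star_mul' (f g : HeckeFn U) : star (f * g) = star g * star f :=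
  ext_kernel fun a c => by
    classical
    rw [kernel_star, kernel_mul, kernel_mul, act_eq_sum_of_subset f _ (Finset.subset_union_left
      (s₂ := (star g).row a)), act_eq_sum_of_subset (star g) _ (Finset.subset_union_right
      (s₁ := f.row c)), map_sum]
    exact Finset.sum_congr rfl fun b _ => by rw [map_mul, kernel_star, kernel_star, mul_comm]

instance instStarRing : StarRing (HeckeFn U) where
  star_involutive := star_star'
  star_mul := star_mul'
  star_add := star_add'

/-- Real symmetric kernels are self-adjoint. -/
theorem star_eq_of_symm {f : HeckeFn U} (hr : ∀ x, conj (f.toFun x) = f.toFun x)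
    (hs : ∀ x, f.toFun x⁻¹ = f.toFun x) : star f = f :=
  ext_toFun fun x => by rw [toFun_star, hr, hs]

/-- `op` of a commuting pair commutes. -/
theorem op_comm {f g : HeckeFn U} (h : Commute f g) (φ : Y U → ℂ) :
    f.op (g.op φ) = g.op (f.op φ) := by rw [← op_mul, h.eq, op_mul]

/-- Hecke functions whose operators commute on all functions commute. -/
theorem commute_of_op {f g : HeckeFn U}
    (h : ∀ φ : Y U → ℂ, f.op (g.op φ) = g.op (f.op φ)) : Commute f g :=
  ext_kernel fun a c => by
    have h2 := congrFun (h fun y => (1 : HeckeFn U).kernel y.2 c) (fun _ => H3.origin, a)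
    simp only [op_eq_act] at h2
    rw [kernel_mul, kernel_mul]
    rw [show (fun b => g.kernel b c) = fun b => g.act (fun d => (1 : HeckeFn U).kernel d c) b from
      funext fun b => by rw [← kernel_mul, HeckeFn.mul_one']]
    rw [show (fun b => f.kernel b c) = fun b => f.act (fun d => (1 : HeckeFn U).kernel d c) b from
      funext fun b => by rw [← kernel_mul, HeckeFn.mul_one']]
    exact h2

end Fermat.Agent.LT.HeckeFn
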